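import Fermat.Agent.ML.At2.Car3.Soft

/-!
# ML / AT-2 / (E2) : the soft Carayol descent, generator form

Same conclusion as `car_soft`, but the invariance hypothesis is only asked for the translation
`trQ q = [[1,1/q],[0,1]]` and for the elements of `Γ₀(N q)`.
-/

set_option autoImplicit false
set_option linter.unusedSectionVars false

open Matrix Matrix.SpecialLinearGroup CongruenceSubgroup OnePoint ModularForm
open scoped MatrixGroups
open P2MW.S_ModularForm_heckeT_slash_eq_self_of_mem_Gamma0.ModularForm.HeckeSlashInvariance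

namespace Fermat.Agent.ML.At2

open Fermat.Agent.S41 Fermat.Agent.S41.Soft

noncomputable section

variable {A : Type*} [AddCommGroup A]

theorem not_dvd_of_dvd_sub_one {l N q : ℕ} (hl : l.Prime)
    (hl1 : ((N * q * q : ℕ) : ℤ) ∣ (l : ℤ) - 1) : ¬ l ∣ N * q := by
  intro h
  have h1 : (l : ℤ) ∣ ((N * q * q : ℕ) : ℤ) := by exact_mod_cast h.mul_right q
  have h2 : (l : ℤ) ∣ 1 := by
    have := dvd_sub (dvd_refl (l : ℤ)) (h1.trans hl1)
    simpa using this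
  have h3 : l ∣ 1 := by exact_mod_cast h2
  exact hl.one_lt.ne' (Nat.dvd_one.mp h3)

/-- quasi-invariance of `G` under `trQ q` and the integral conjugates gives a potential. -/
theorem isPot_of_qInv {N q : ℕ} (hq : q.Prime) (Γ : Subgroup SL(2, ℤ)) (hΓ : Γ ≤ Gamma0 N)
    (hT : ModularGroup.T ∈ Γ) {G : OnePoint ℚ → A} (htr : QInv G (trQ q))
    (hg : ∀ g ∈ Gamma0 (N * q), (∃ γ ∈ Γ, mapGL ℚ γ * dgQ q = dgQ q * mapGL ℚ g) →
      QInv G (mapGL ℚ g)) :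
    IsPot Γ (fun s => G ((dgQ q)⁻¹ • s)) := by
  have hq0 : q ≠ 0 := hq.ne_zero
  intro γ hγ
  obtain ⟨i, k, hik⟩ := exists_T_mul_T hq γ
  have hγ₀ : ModularGroup.T ^ i * γ * ModularGroup.T ^ k ∈ Γ :=
    Γ.mul_mem (Γ.mul_mem (Γ.zpow_mem hT i) hγ) (Γ.zpow_mem hT k)
  obtain ⟨g, hg', hgc⟩ := exists_conj_dgQ hq0 _ (hΓ hγ₀) hik
  have hgq : QInv G (mapGL ℚ g) := hg g hg' ⟨_, hγ₀, hgc⟩
  have hTz : ∀ n : ℤ, mapGL ℚ (ModularGroup.T ^ n) * dgQ q = dgQ q * trQ q ^ n := by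
    intro n
    have h1 : mapGL ℚ ModularGroup.T = dgQ q * trQ q * (dgQ q)⁻¹ := by
      rw [← mapGL_T_mul_dgQ hq0, mul_inv_cancel_right]
    rw [map_zpow, h1, conj_zpow, inv_mul_cancel_right]
  have hfin : mapGL ℚ γ * dgQ q = dgQ q * ((trQ q ^ i)⁻¹ * mapGL ℚ g * (trQ q ^ k)⁻¹) := by
    have h1 : mapGL ℚ γ = (mapGL ℚ (ModularGroup.T ^ i))⁻¹
        * mapGL ℚ (ModularGroup.T ^ i * γ * ModularGroup.T ^ k)
        * (mapGL ℚ (ModularGroup.T ^ k))⁻¹ := by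
      rw [map_mul, map_mul]; group
    have h2 : ∀ n : ℤ, (mapGL ℚ (ModularGroup.T ^ n))⁻¹ * dgQ q = dgQ q * (trQ q ^ n)⁻¹ := by
      intro n
      rw [inv_mul_eq_iff_eq_mul, ← mul_assoc, hTz, mul_assoc, mul_inv_cancel, mul_one]
    rw [h1, mul_assoc, h2, ← mul_assoc, mul_assoc _ _ (dgQ q), hgc, ← mul_assoc, h2]
    simp only [mul_assoc]
  obtain ⟨c, hc⟩ := (((htr.zpow i).inv.mul hgq).mul (htr.zpow k).inv)
  refine ⟨c, fun s => ?_⟩
  have := hc ((dgQ q)⁻¹ • s)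
  show G ((dgQ q)⁻¹ • mapGL ℚ γ • s) = G ((dgQ q)⁻¹ • s) + c
  rw [← this, ← mul_smul, ← mul_smul]
  congr 2
  rw [eq_comm, ← mul_left_cancel_iff (a := dgQ q), ← mul_assoc, ← hfin]
  simp

/-- **The soft Carayol descent, generator form.** -/
theorem car_soft_gen {l N q : ℕ} (hq : q.Prime) (hl : l.Prime)
    (hl1 : ((N * q * q : ℕ) : ℤ) ∣ (l : ℤ) - 1) (Γ : Subgroup SL(2, ℤ)) (hΓ : Γ ≤ Gamma0 N)
    (hT : ModularGroup.T ∈ Γ) {P : OnePoint ℚ → A} (hP : IsPot (Gamma0 (N * q * q)) P)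
    (htr : IsInv (Gamma0 (N * q * q)) (fun s => P (trQ q • s) - P s))
    (hg : ∀ g ∈ Gamma0 (N * q), (∃ γ ∈ Γ, mapGL ℚ γ * dgQ q = dgQ q * mapGL ℚ g) →
      IsInv (Gamma0 (N * q * q)) (fun s => P (mapGL ℚ g • s) - P s)) :
    IsPot Γ (fun s => DD l P ((dgQ q)⁻¹ • s)) :=
  isPot_of_qInv hq Γ hΓ hT (qInv_DD_trQ hl hq.ne_zero hl1 hP htr) fun g hg' hex =>
    qInv_DD_of_mem hl (not_dvd_of_dvd_sub_one hl hl1) hl1 hP g hg' (hg g hg' hex)

/-- the case `Γ = Γ₀(N)` (`G = A₄` for `q = 3`, `G = S₃` for `q = 2`). -/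
theorem car_soft_A {l N q : ℕ} (hq : q.Prime) (hl : l.Prime)
    (hl1 : ((N * q * q : ℕ) : ℤ) ∣ (l : ℤ) - 1) {P : OnePoint ℚ → A}
    (hP : IsPot (Gamma0 (N * q * q)) P)
    (htr : IsInv (Gamma0 (N * q * q)) (fun s => P (trQ q • s) - P s))
    (hg : ∀ g ∈ Gamma0 (N * q), IsInv (Gamma0 (N * q * q)) (fun s => P (mapGL ℚ g • s) - P s)) :
    IsPot (Gamma0 N) (fun s => DD l P ((dgQ q)⁻¹ • s)) :=
  car_soft_gen hq hl hl1 (Gamma0 N) le_rfl (by have := T_zpow_mem N 1; rwa [zpow_one] at this) hP htr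
    fun g hg' _ => hg g hg'

/-- the case `Γ = Γ₀(N q)` (`G = C_q`): only the invariance under the translation is needed. -/
theorem car_soft_C {l N q : ℕ} (hq : q.Prime) (hl : l.Prime)
    (hl1 : ((N * q * q : ℕ) : ℤ) ∣ (l : ℤ) - 1) {P : OnePoint ℚ → A}
    (hP : IsPot (Gamma0 (N * q * q)) P)
    (htr : IsInv (Gamma0 (N * q * q)) (fun s => P (trQ q • s) - P s)) :
    IsPot (Gamma0 (N * q)) (fun s => DD l P ((dgQ q)⁻¹ • s)) := by
  have hq0 : q ≠ 0 := hq.ne_zero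
  have hq' : (q : ℚ) ≠ 0 := by exact_mod_cast hq0
  refine car_soft_gen hq hl hl1 (Gamma0 (N * q)) (Gamma0_mul_le N q)
    (by have := T_zpow_mem (N * q) 1; rwa [zpow_one] at this) hP htr ?_
  rintro g - ⟨γ, hγ, h⟩
  -- `g ∈ Γ₀(N q²)`
  have hg1 : g ∈ Gamma0 (N * q * q) := by
    have hM := congrArg (fun B : GL (Fin 2) ℚ => (B : Matrix (Fin 2) (Fin 2) ℚ) 1 0) h
    simp only [Matrix.GeneralLinearGroup.coe_mul, val_dgQ hq0] at hM
    rw [Matrix.mul_apply, Matrix.mul_apply, Fin.sum_univ_two, Fin.sum_univ_two] at hM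
    have m00 : ∀ (k : SL(2, ℤ)) (i j : Fin 2),
        ((mapGL ℚ k : GL (Fin 2) ℚ) : Matrix (Fin 2) (Fin 2) ℚ) i j = ((k i j : ℤ) : ℚ) :=
      fun k i j => Fermat.Agent.S41.mapGL_apply k i j
    simp only [m00] at hM
    simp at hM
    have hZ : γ 1 0 * q = g 1 0 := by exact_mod_cast hM
    rw [mem_Gamma0_iff_dvd] at hγ ⊢
    rw [← hZ]
    push_cast at hγ ⊢
    exact mul_dvd_mul_right hγ _
  obtain ⟨c, hc⟩ := hP g hg1
  intro γ' _ s
  simp only [hc]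
  abel

/-- invariance of the character under conjugation by `B` gives the invariance of
`P ∘ B - P`. -/
theorem isInv_comp_sub {Γ₁ : Subgroup SL(2, ℤ)} {P : OnePoint ℚ → A} (hP : IsPot Γ₁ P)
    (B : GL (Fin 2) ℚ)
    (h : ∀ g ∈ Γ₁, ∃ g' ∈ Γ₁, B * mapGL ℚ g = mapGL ℚ g' * B ∧
      P (mapGL ℚ g' • ∞) - P ∞ = P (mapGL ℚ g • ∞) - P ∞) :
    IsInv Γ₁ (fun s => P (B • s) - P s) := by
  intro g hg s
  obtain ⟨g', hg', hB, he⟩ := h g hg
  obtain ⟨c, hc⟩ := hP g hg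
  obtain ⟨c', hc'⟩ := hP g' hg'
  have hcc : c' = c := by
    rw [hc, hc'] at he
    simpa using he
  show P (B • mapGL ℚ g • s) - P (mapGL ℚ g • s) = P (B • s) - P s
  rw [← mul_smul, hB, mul_smul, hc', hc, hcc]
  abel

end

end Fermat.Agent.ML.At2
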