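import Fermat.Agent.ML.At2.Car3.InjA
import Fermat.Agent.ML.Ihara.Theta

/-!
# ML / AT-2 / (E2), [CAR2], [INV4] : from `d^* x = T_r (T_l - l - 1) y` to `y ∈ d^* (θ-part)`

`d = d_1^* = α^* β^* : J₀(N) → J₀(N q²)`.  If `y` is in the `θ`-part of `J₀(N q²)`, `x` is a
`p`-power torsion point of `J₀(N)` and `d x = T_{r₀} (T_l - l - 1) y` with `θ r₀` and
`θ l - l - 1` units mod `p`, then `y = d x'` with `x'` in the `θ`-part of `J₀(N)`.

No Fitting decomposition: `ker d` on torsion is Eisenstein (`α^*` is injective on torsion at a level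
divisible by `q`, Ihara for `β^*`), so `E x` is in the `θ`-part for a product `E` of two Eisenstein
operators, and an operator `T_l - a` with `θ l - a` a unit mod `p` can be removed
(`mem_of_shift_mem`).
-/

set_option autoImplicit false
set_option linter.unusedSectionVars false

open AlgebraicCurve ModularCurve

namespace Fermat.Agent.ML.At2

open Fermat.Agent.GAL Fermat.Agent.GAL.PC Fermat.Agent.RIB Fermat.Agent.ML

local notation "GQ" => (AlgebraicClosure ℚ ≃ₐ[ℚ] AlgebraicClosure ℚ)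

noncomputable section

/-- `D` a `ν`-stable subgroup, `ν` nilpotent on `z`, `z` of `p`-power order, `u` prime to `p`:
`(ν + u) z ∈ D ⟹ z ∈ D`. -/
theorem mem_of_shift_mem {M : Type*} [AddCommGroup M] (D : AddSubgroup M) (ν : Module.End ℤ M)
    (hD : ∀ x ∈ D, ν x ∈ D) {z : M} {b n p : ℕ} (hν : (ν ^ b) z = 0) (hp : p ^ n • z = 0) {u : ℤ}
    (hu : IsCoprime u (p : ℤ)) (h : ν z + u • z ∈ D) : z ∈ D := by
  have key : ∀ j : ℕ, (ν ^ j) z - ((-u) ^ j) • z ∈ D := by
    intro j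
    induction j with
    | zero => simp
    | succ j ih =>
      have e : (ν ^ (j + 1)) z - ((-u) ^ (j + 1)) • z
          = ν ((ν ^ j) z - ((-u) ^ j) • z) + ((-u) ^ j) • (ν z + u • z) := by
        rw [pow_succ', Module.End.mul_apply, map_sub, map_zsmul, smul_add, smul_smul, pow_succ]
        have : (-u) ^ j * -u = -((-u) ^ j * u) := by ring
        rw [this, neg_smul]
        abel
      rw [e]
      exact D.add_mem (hD _ ih) (D.zsmul_mem h _)
  have h1 : ((-u) ^ b) • z ∈ D := by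
    have := key b
    rw [hν, zero_sub] at this
    simpa using D.neg_mem this
  have hcop : IsCoprime ((-u) ^ b) ((p : ℤ) ^ n) := IsCoprime.pow hu.neg_left
  obtain ⟨a, c, hac⟩ := hcop
  have hn' : ((p : ℤ) ^ n) • z = 0 := by
    have : ((p : ℤ) ^ n) = ((p ^ n : ℕ) : ℤ) := by push_cast; rfl
    rw [this, natCast_zsmul, hp]
  have : z = a • (((-u) ^ b) • z) := by
    calc z = (1 : ℤ) • z := (one_smul _ _).symm
      _ = (a * (-u) ^ b + c * (p : ℤ) ^ n) • z := by rw [hac]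
      _ = a • (((-u) ^ b) • z) := by
        rw [add_zsmul, mul_zsmul, mul_zsmul, hn', zsmul_zero, add_zero]
  rw [this]
  exact D.zsmul_mem h1 _

variable {N N' p : ℕ} [NeZero N] [NeZero N'] {S : Set ℕ} {θ : ℕ → ℤ}

/-- `d` intertwines the powers of `T_r - θ r` on `p`-power torsion. -/
theorem map_hk_pow (d : JZero N →+ JZero N') (r : Nat.Primes)
    (hd : ∀ x ∈ ptors (JZero N) p, d (heckeOperatorBar N r x) = heckeOperatorBar N' r (d x))
    (j : ℕ) : ∀ y ∈ ptors (JZero N) p, (hk N' θ r ^ j) (d y) = d ((hk N θ r ^ j) y) := by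
  have hst : ∀ y ∈ ptors (JZero N) p, hk N θ r y ∈ ptors (JZero N) p := fun y hy =>
    map_mem_ptors (hk N θ r).toAddMonoidHom hy
  induction j with
  | zero => intro y _; rfl
  | succ j ih =>
    intro y hy
    have h1 : hk N' θ r (d y) = d (hk N θ r y) := by
      rw [hk_apply, hk_apply, map_sub, map_zsmul, hd y hy]
    rw [pow_succ, pow_succ, Module.End.mul_apply, Module.End.mul_apply, ← ih _ (hst y hy), h1]

/-- **removing a unit operator** : `(T_l - a) z ∈ d (θ-part) ⟹ z ∈ d (θ-part)`. -/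
theorem mem_map_of_hecke_sub_mem (hp : p.Prime) (d : JZero N →+ JZero N') (l : Nat.Primes)
    (hd : ∀ x ∈ ptors (JZero N) p, d (heckeOperatorBar N l x) = heckeOperatorBar N' l (d x))
    (hl : (l : ℕ) ∉ S) (a : ℤ) (ha : ¬ (p : ℤ) ∣ θ l - a) {z : JZero N'}
    (hz : z ∈ thetaPart N' p S θ)
    (h : heckeOperatorBar N' l z - a • z ∈ (thetaPart N p S θ).map d) :
    z ∈ (thetaPart N p S θ).map d := by
  obtain ⟨⟨n, hn⟩, hz2⟩ := hz
  obtain ⟨b, hb⟩ := hz2 l hl
  refine mem_of_shift_mem _ (hk N' θ l) ?_ hb hn (u := θ l - a)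
    ((Nat.prime_iff_prime_int.mp hp).coprime_iff_not_dvd.mpr ha).symm ?_
  · rintro _ ⟨x, hx, rfl⟩
    refine ⟨hk N θ l x, ?_, ?_⟩
    · rw [hk_apply]
      exact (thetaPart N p S θ).sub_mem (hecke_mem_thetaPart l hx)
        ((thetaPart N p S θ).zsmul_mem hx _)
    · rw [hk_apply, hk_apply, map_sub, map_zsmul, hd x hx.1]
  · have : hk N' θ l z + (θ l - a) • z = heckeOperatorBar N' l z - a • z := by
      rw [hk_apply, sub_smul]; abel
    rw [this]
    exact h

/-- if `E` commutes with the Hecke operators and kills the `p`-power torsion of `ker d`, then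
`E x` is in the `θ`-part as soon as `d x` is. -/
theorem mem_thetaPart_of_map_mem (d : JZero N →+ JZero N')
    (hd : ∀ r : Nat.Primes, (r : ℕ) ∉ S → ∀ x ∈ ptors (JZero N) p,
      d (heckeOperatorBar N r x) = heckeOperatorBar N' r (d x))
    (E : Module.End ℤ (JZero N)) (hE : ∀ r : Nat.Primes, Commute E (heckeOperatorBar N r))
    (hker : ∀ x ∈ ptors (JZero N) p, d x = 0 → E x = 0) {x : JZero N}
    (hx : x ∈ ptors (JZero N) p) (hdx : d x ∈ thetaPart N' p S θ) :
    E x ∈ thetaPart N p S θ := by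
  refine ⟨map_mem_ptors E.toAddMonoidHom hx, fun r hr => ?_⟩
  obtain ⟨m, hm⟩ := hdx.2 r hr
  refine ⟨m, ?_⟩
  rw [map_hk_pow d r (hd r hr) m x hx] at hm
  have hmem : (hk N θ r ^ m) x ∈ ptors (JZero N) p :=
    map_mem_ptors (hk N θ r ^ m).toAddMonoidHom hx
  have h0 := hker _ hmem hm
  have hc : Commute E (hk N θ r ^ m) := by
    refine Commute.pow_right ?_ m
    rw [hk]
    exact (hE r).sub_right (Int.cast_commute _ _).symm
  have := congrArg (fun f : Module.End ℤ (JZero N) => f x) hc.eq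
  simp only [Module.End.mul_apply] at this
  rw [← this, h0]

theorem commute_eis_hecke (l r : Nat.Primes) : Commute (eis N l) (heckeOperatorBar N r) := by
  rw [eis]
  exact Commute.sub_left (HeckeComm.heckeOperatorsCommuteBar N l r) (Int.cast_commute _ _)

variable {q : ℕ} [NeZero q]

/-- **exact image.** -/
theorem car_image (hp : p.Prime) (hq : q.Prime) (hqN : ¬ q ∣ N) (hAP : NonEisAP p S θ)
    (hqS : q ∈ S) (hS : ∀ r : ℕ, r.Prime → r ∉ S → ¬ r ∣ N * q * q * p)
    (r₀ l : Nat.Primes) (hr₀ : (r₀ : ℕ) ∉ S) (hθr : ¬ (p : ℤ) ∣ θ r₀) (hl : (l : ℕ) ∉ S)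
    (hθl : ¬ (p : ℤ) ∣ θ l - (((l : ℕ) : ℤ) + 1))
    {y : JZero (N * q * q)} (hy : y ∈ thetaPart (N * q * q) p S θ) {x : JZero N}
    (hx : x ∈ ptors (JZero N) p)
    (h : pullA (N * q) q (pullB N q x)
      = heckeOperatorBar (N * q * q) r₀ (eis (N * q * q) l y)) :
    ∃ x' ∈ thetaPart N p S θ, pullA (N * q) q (pullB N q x') = y := by
  set d : JZero N →+ JZero (N * q * q) := (pullA (N * q) q).comp (pullB N q) with hd_def
  have hdσ : ∀ (σ : GQ) x, d (σ • x) = σ • d x := by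
    intro σ x
    rw [hd_def, AddMonoidHom.comp_apply, AddMonoidHom.comp_apply, pullB_smul, pullA_smul]
  have hS1 : ∀ r : ℕ, r.Prime → r ∉ S → ¬ r ∣ N * p := fun r hr hrS hdv =>
    hS r hr hrS (hdv.trans (Nat.mul_dvd_mul_right ((Dvd.intro _ rfl).mul_right q) p))
  have hd : ∀ r : Nat.Primes, (r : ℕ) ∉ S → ∀ x ∈ ptors (JZero N) p,
      d (heckeOperatorBar N r x) = heckeOperatorBar (N * q * q) r (d x) := fun r hr x hx =>
    SS.map_hecke_of_equivariant (SS.es_all N p).2 (SS.es_all (N * q * q) p).2 d hdσ r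
      (hS1 r r.2 hr) (hS r r.2 hr) x hx
  -- the Eisenstein operator killing `ker d`
  obtain ⟨M₀, hM₀, H⟩ := iharaTors_J0 (N := N) hq hqN
  obtain ⟨l₁, hl₁1, hl₁S, hl₁ne⟩ := hAP M₀ hM₀
  obtain ⟨l₂, hl₂1, hl₂S, hl₂ne⟩ := hAP (N * q) (Nat.mul_pos (NeZero.pos N) (NeZero.pos q))
  have hker : ∀ x ∈ ptors (JZero N) p, d x = 0 → (eis N l₁ * eis N l₂) x = 0 := by
    rintro x ⟨n, hn⟩ h0
    have : NeZero (p ^ n) := ⟨pow_ne_zero _ hp.ne_zero⟩
    have hB : pullB N q x = 0 :=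
      eq_zero_of_pullA_eq_zero (m := p ^ n) q hq (Dvd.intro_left _ rfl)
        (by rw [← map_nsmul, hn, map_zero]) h0
    exact (H l₁ l₂ hl₁1 (fun h => hl₁S (h ▸ hqS)) hl₂1 (p ^ n) (pow_pos hp.pos _) 0 x
      (smul_zero _) hn (by rw [map_zero, zero_add, hB])).2
  have hdx : d x ∈ thetaPart (N * q * q) p S θ := by
    show pullA (N * q) q (pullB N q x) ∈ _
    rw [h]
    exact hecke_mem_thetaPart r₀ (eis_mem_thetaPart l hy)
  have hEx : (eis N l₁ * eis N l₂) x ∈ thetaPart N p S θ :=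
    mem_thetaPart_of_map_mem d hd _
      (fun r => (commute_eis_hecke l₁ r).mul_left (commute_eis_hecke l₂ r)) hker hx hdx
  have hdeis : ∀ r : Nat.Primes, (r : ℕ) ∉ S → ∀ x ∈ ptors (JZero N) p,
      d (eis N r x) = eis (N * q * q) r (d x) := by
    intro r hr x hx
    rw [eis_apply, eis_apply, map_sub, map_zsmul, hd r hr x hx]
  have h1 : eis (N * q * q) l₁ (eis (N * q * q) l₂
      (heckeOperatorBar (N * q * q) r₀ (eis (N * q * q) l y))) ∈ (thetaPart N p S θ).map d := by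
    refine ⟨_, hEx, ?_⟩
    have hx2 : eis N l₂ x ∈ ptors (JZero N) p := map_mem_ptors (eis N l₂).toAddMonoidHom hx
    rw [Module.End.mul_apply, hdeis l₁ hl₁S _ hx2, hdeis l₂ hl₂S _ hx]
    show eis (N * q * q) l₁ (eis (N * q * q) l₂ (pullA (N * q) q (pullB N q x))) = _
    rw [h]
  have t3 := eis_mem_thetaPart l hy
  have t2 := hecke_mem_thetaPart r₀ t3
  have t1 := eis_mem_thetaPart l₂ t2
  have h2 := mem_map_of_hecke_sub_mem hp d l₁ (hd l₁ hl₁S) hl₁S _ hl₁ne t1
    (by rw [← eis_apply]; exact h1)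
  have h3 := mem_map_of_hecke_sub_mem hp d l₂ (hd l₂ hl₂S) hl₂S _ hl₂ne t2
    (by rw [← eis_apply]; exact h2)
  have h4 := mem_map_of_hecke_sub_mem hp d r₀ (hd r₀ hr₀) hr₀ 0 (by simpa using hθr) t3
    (by simpa using h3)
  have h5 := mem_map_of_hecke_sub_mem hp d l (hd l hl) hl _ hθl hy
    (by rw [← eis_apply]; exact h4)
  obtain ⟨x', hx', e⟩ := h5
  exact ⟨x', hx', e⟩

end

end Fermat.Agent.ML.At2
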