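import Fermat.Agent.S41.IharaH

/-!
# ML / AT-2 / (E2) : the soft Carayol descent (function level)

`P` a potential on the cusps for `Γ₁ = Γ₀(N q²)`, `δ = diag(q,1)`, `c_γ = δ⁻¹ γ δ` (`γ ∈ Γ₀(N)`).
If `P ∘ c_γ - P` is `Γ₁`-invariant for all `γ ∈ Γ` (`T ∈ Γ ≤ Γ₀(N)`) and `l ≡ 1 mod N q²` is a prime,
then `(DD l P) ∘ δ⁻¹` is a potential for `Γ` : `DD l = T_l - (l+1)` kills the `Γ₁`-invariant functions
and commutes with `∘ c_γ` up to constants.
-/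

set_option autoImplicit false
set_option linter.unusedSectionVars false

open Matrix Matrix.SpecialLinearGroup CongruenceSubgroup OnePoint ModularForm
open scoped MatrixGroups
open P2MW.S_ModularForm_heckeT_slash_eq_self_of_mem_Gamma0.ModularForm.HeckeSlashInvariance

namespace Fermat.Agent.ML.At2

open Fermat.Agent.S41 Fermat.Agent.S41.Soft

noncomputable section

variable {A : Type*} [AddCommGroup A]

/-! ### quasi-invariance -/

/-- `G ∘ B - G` is constant. -/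
def QInv (G : OnePoint ℚ → A) (B : GL (Fin 2) ℚ) : Prop := ∃ c : A, ∀ s, G (B • s) = G s + c

theorem QInv.one (G : OnePoint ℚ → A) : QInv G 1 := ⟨0, fun s => by simp⟩

theorem QInv.mul {G : OnePoint ℚ → A} {B C : GL (Fin 2) ℚ} (hB : QInv G B) (hC : QInv G C) :
    QInv G (B * C) := by
  obtain ⟨b, hb⟩ := hB
  obtain ⟨c, hc⟩ := hC
  exact ⟨c + b, fun s => by rw [mul_smul, hb, hc, add_assoc]⟩

theorem QInv.inv {G : OnePoint ℚ → A} {B : GL (Fin 2) ℚ} (hB : QInv G B) : QInv G B⁻¹ := by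
  obtain ⟨b, hb⟩ := hB
  refine ⟨-b, fun s => ?_⟩
  have := hb (B⁻¹ • s)
  rw [smul_inv_smul] at this
  rw [this]
  abel

theorem QInv.zpow {G : OnePoint ℚ → A} {B : GL (Fin 2) ℚ} (hB : QInv G B) (n : ℤ) :
    QInv G (B ^ n) := by
  induction n using Int.induction_on with
  | zero => simpa using QInv.one G
  | succ n ih => rw [_root_.zpow_add_one]; exact ih.mul hB
  | pred n ih => rw [_root_.zpow_sub_one]; exact ih.mul hB.inv

/-! ### the translation by `1/q` -/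

/-- `s ↦ s + 1/q` -/
def trQ (q : ℕ) : GL (Fin 2) ℚ := utQ 1 (1 / q) 1 (by norm_num)

theorem trQ_smul_infty (q : ℕ) : trQ q • (∞ : OnePoint ℚ) = ∞ := by
  rw [smul_infty_eq_self_iff]
  show ((trQ q : GL (Fin 2) ℚ) : Matrix (Fin 2) (Fin 2) ℚ) 1 0 = 0
  rw [trQ, val_utQ]; simp

theorem trQ_smul_coe (q : ℕ) (s : ℚ) :
    trQ q • (s : OnePoint ℚ) = ((s + 1 / q : ℚ) : OnePoint ℚ) := by
  rw [smul_some_eq_ite]
  have e : ∀ a b, (trQ q : GL (Fin 2) ℚ) a b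
      = (!![(1 : ℚ), (1 / q : ℚ); 0, 1] : Matrix (Fin 2) (Fin 2) ℚ) a b := by
    intro a b
    rw [← val_utQ 1 (1 / q) 1 (by norm_num)]
    rfl
  rw [e, e, e, e]
  simp

theorem sum_range_shift {M : Type*} [AddCommGroup M] {l : ℕ} (φ : ℕ → M)
    (hφ : ∀ n, φ (n + l) = φ n) (e : ℕ) :
    ∑ i ∈ Finset.range l, φ (i + e) = ∑ i ∈ Finset.range l, φ i := by
  induction e with
  | zero => simp
  | succ e ih =>
    rw [← ih]
    have h1 := Finset.sum_range_succ (fun i => φ (i + e)) l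
    have h2 := Finset.sum_range_succ' (fun i => φ (i + e)) l
    have h3 : φ (l + e) = φ (0 + e) := by rw [add_comm l e, hφ, zero_add]
    have h4 : ∑ i ∈ Finset.range l, φ (i + 1 + e) = ∑ i ∈ Finset.range l, φ (i + e) := by
      have := h1.symm.trans h2
      rw [h3] at this
      exact (add_right_cancel this).symm
    rw [← h4]
    refine Finset.sum_congr rfl fun i _ => ?_
    congr 1
    ring

theorem apply_add_natCast (F : OnePoint ℚ → A)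
    (hT : ∀ s : ℚ, F ((s + 1 : ℚ) : OnePoint ℚ) = F (s : OnePoint ℚ)) (s : ℚ) (n : ℕ) :
    F ((s + n : ℚ) : OnePoint ℚ) = F (s : OnePoint ℚ) := by
  induction n with
  | zero => simp
  | succ n ih =>
    have : s + ((n + 1 : ℕ) : ℚ) = (s + n) + 1 := by push_cast; ring
    rw [this, hT, ih]

/-- `T_l` commutes with the translation by `1/q` on translation invariant functions,
`l ≡ 1 mod q`. -/
theorem TT_comp_trQ {l q : ℕ} (hl : l ≠ 0) (hq : q ≠ 0) {e : ℕ} (he : l = 1 + q * e)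
    (F : OnePoint ℚ → A)
    (hT : ∀ s : ℚ, F ((s + 1 : ℚ) : OnePoint ℚ) = F (s : OnePoint ℚ)) (s : OnePoint ℚ) :
    TT l (fun t => F (trQ q • t)) s = TT l F (trQ q • s) := by
  have hl' : (l : ℚ) ≠ 0 := by exact_mod_cast hl
  have hq' : (q : ℚ) ≠ 0 := by exact_mod_cast hq
  have heQ : (l : ℚ) = 1 + q * e := by exact_mod_cast he
  induction s using OnePoint.rec with
  | infty => rw [trQ_smul_infty, TT_infty hl, TT_infty hl, trQ_smul_infty]
  | coe s =>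
    rw [trQ_smul_coe, TT_coe hl, TT_coe hl]
    simp only [trQ_smul_coe]
    congr 1
    · have : (l : ℚ) * (s + 1 / q) = ((l : ℚ) * s + 1 / q) + e := by
        rw [heQ]; field_simp; ring
      rw [this, apply_add_natCast F hT]
    · have h := sum_range_shift (l := l)
        (fun n : ℕ => F (((s + 1 / q + n) / l : ℚ) : OnePoint ℚ)) (fun n => by
          have : (s + 1 / q + ((n + l : ℕ) : ℚ)) / l = (s + 1 / q + n) / l + 1 := by
            push_cast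
            field_simp
            ring
          simp only [this, hT]) e
      rw [← h]
      refine Finset.sum_congr rfl fun i _ => ?_
      congr 2
      push_cast
      rw [heQ]
      field_simp
      ring

theorem DD_comp_trQ {l q : ℕ} (hl : l ≠ 0) (hq : q ≠ 0) {e : ℕ} (he : l = 1 + q * e)
    (F : OnePoint ℚ → A)
    (hT : ∀ s : ℚ, F ((s + 1 : ℚ) : OnePoint ℚ) = F (s : OnePoint ℚ)) (s : OnePoint ℚ) :
    DD l (fun t => F (trQ q • t)) s = DD l F (trQ q • s) := by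
  rw [DD, DD, TT_comp_trQ hl hq he F hT]

/-! ### `T_l` and the elements of `Γ₀(N q)` -/

theorem repQ_entries {l : ℕ} (hl : l ≠ 0) {m : ℤ} (hm : m ∣ (l : ℤ) - 1) (x : OnePoint (ZMod l)) :
    ∃ α β ω : ℤ, ((repQ l x : GL (Fin 2) ℚ) : Matrix (Fin 2) (Fin 2) ℚ)
        = !![(α : ℚ), (β : ℚ); 0, (ω : ℚ)] ∧ m ∣ α - 1 ∧ m ∣ ω - 1 := by
  induction x using OnePoint.rec with
  | infty =>
    refine ⟨l, 0, 1, ?_, hm, by simp⟩
    show ((dgQ l : GL (Fin 2) ℚ) : Matrix (Fin 2) (Fin 2) ℚ) = _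
    rw [val_dgQ hl]; simp
  | coe j =>
    refine ⟨1, j.val, l, ?_, by simp, hm⟩
    show ((upQ l j.val : GL (Fin 2) ℚ) : Matrix (Fin 2) (Fin 2) ℚ) = _
    rw [val_upQ hl]; simp

/-- the refined commutation: modulo `Γ₀(N q²)` the element `g ∈ Γ₀(N q)` commutes with the
representatives of `T_l`, `l ≡ 1 mod N q²`. -/
theorem repQ_mul_sq {l N q : ℕ} [Fact l.Prime] (hlN : ¬ l ∣ N * q)
    (hl1 : ((N * q * q : ℕ) : ℤ) ∣ (l : ℤ) - 1) (g : SL(2, ℤ)) (hg : g ∈ Gamma0 (N * q))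
    (x : OnePoint (ZMod l)) :
    ∃ g₁ ∈ Gamma0 (N * q * q),
      repQ l x * mapGL ℚ g = mapGL ℚ g₁ * mapGL ℚ g * repQ l (redMatrix l g • x) := by
  have hl0 : l ≠ 0 := (Fact.out : l.Prime).ne_zero
  obtain ⟨g', hg', h⟩ := repQ_mul hlN g hg x
  refine ⟨g' * g⁻¹, ?_, by rw [h, ← map_mul, inv_mul_cancel_right]⟩
  obtain ⟨α, β, ω, e, hα, hω⟩ := repQ_entries hl0 hl1 x
  obtain ⟨α', β', ω', e', hα', hω'⟩ := repQ_entries hl0 hl1 (redMatrix l g • x)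
  have hM := congrArg (fun B : GL (Fin 2) ℚ => (B : Matrix (Fin 2) (Fin 2) ℚ)) h
  simp only [Matrix.GeneralLinearGroup.coe_mul, e, e'] at hM
  have h10 := congrFun (congrFun hM 1) 0
  have h11 := congrFun (congrFun hM 1) 1
  rw [Matrix.mul_apply, Matrix.mul_apply, Fin.sum_univ_two, Fin.sum_univ_two] at h10 h11
  have m00 : ∀ (k : SL(2, ℤ)) (i j : Fin 2),
      ((mapGL ℚ k : GL (Fin 2) ℚ) : Matrix (Fin 2) (Fin 2) ℚ) i j = ((k i j : ℤ) : ℚ) :=
    fun k i j => Fermat.Agent.S41.mapGL_apply k i j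
  simp only [m00] at h10 h11
  simp at h10 h11
  have z10 : ω * g 1 0 = g' 1 0 * α' := by exact_mod_cast h10
  have z11 : ω * g 1 1 = g' 1 0 * β' + g' 1 1 * ω' := by exact_mod_cast h11
  rw [mem_Gamma0_iff_dvd] at hg' ⊢
  have hent : (g' * g⁻¹) 1 0 = g' 1 0 * g 1 1 - g' 1 1 * g 1 0 := by
    rw [Matrix.SpecialLinearGroup.coe_mul, Matrix.SpecialLinearGroup.coe_inv,
      Matrix.adjugate_fin_two, Matrix.mul_apply, Fin.sum_univ_two]
    simp
    ring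
  rw [hent]
  obtain ⟨k, hk⟩ := hg'
  obtain ⟨u, hu⟩ := hω
  obtain ⟨u', hu'⟩ := hω'
  obtain ⟨v', hv'⟩ := hα'
  have hω2 : ω = 1 + ((N * q * q : ℕ) : ℤ) * u := by linarith
  have hω2' : ω' = 1 + ((N * q * q : ℕ) : ℤ) * u' := by linarith
  have hα2' : α' = 1 + ((N * q * q : ℕ) : ℤ) * v' := by linarith
  rw [hω2, hα2'] at z10
  rw [hω2, hω2'] at z11
  refine ⟨g' 1 0 * (g' 1 1 * u' - u * g 1 1) + g' 1 1 * (u * g 1 0 - g' 1 0 * v')
    + N * k * k * β', ?_⟩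
  push_cast at hk z10 z11 ⊢
  have hsq : g' 1 0 * g' 1 0 = (N : ℤ) * q * q * (N * k * k) := by rw [hk]; ring
  linear_combination (g' 1 0) * z11 - (g' 1 1) * z10 + β' * hsq

/-- `T_l` commutes with `∘ g` up to a constant on the potentials for `Γ₀(N q²)`. -/
theorem TT_comp_of_mem {l N q : ℕ} (hl : l.Prime) (hlN : ¬ l ∣ N * q)
    (hl1 : ((N * q * q : ℕ) : ℤ) ∣ (l : ℤ) - 1) {P : OnePoint ℚ → A}
    (hP : IsPot (Gamma0 (N * q * q)) P) (g : SL(2, ℤ)) (hg : g ∈ Gamma0 (N * q)) :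
    ∃ c : A, ∀ s, TT l P (mapGL ℚ g • s) = TT l (fun t => P (mapGL ℚ g • t)) s + c := by
  have : Fact l.Prime := ⟨hl⟩
  have : NeZero l := ⟨hl.ne_zero⟩
  choose g' hg' hmul using fun x => repQ_mul_sq hlN hl1 g hg x
  choose c hc using fun x => hP (g' x) (hg' x)
  refine ⟨∑ x, c x, fun s => ?_⟩
  rw [TT_eq_sum, TT_eq_sum]
  have : ∀ x, P (repQ l x • mapGL ℚ g • s)
      = P (mapGL ℚ g • repQ l (redMatrix l g • x) • s) + c x := by
    intro x
    rw [← mul_smul, hmul, mul_smul, mul_smul, hc]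
  simp only [this]
  rw [Finset.sum_add_distrib]
  congr 1
  exact Equiv.sum_comp (MulAction.toPerm (redMatrix l g))
    (fun x => P (mapGL ℚ g • repQ l x • s))

theorem DD_congr (l : ℕ) {P Q : OnePoint ℚ → A} (h : ∀ s, P s = Q s) (s : OnePoint ℚ) :
    DD l P s = DD l Q s := by
  have : P = Q := funext h
  rw [this]

theorem qInv_DD_of_mem {l N q : ℕ} (hl : l.Prime) (hlN : ¬ l ∣ N * q)
    (hl1 : ((N * q * q : ℕ) : ℤ) ∣ (l : ℤ) - 1) {P : OnePoint ℚ → A}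
    (hP : IsPot (Gamma0 (N * q * q)) P) (g : SL(2, ℤ)) (hg : g ∈ Gamma0 (N * q))
    (hinv : IsInv (Gamma0 (N * q * q)) (fun s => P (mapGL ℚ g • s) - P s)) :
    QInv (DD l P) (mapGL ℚ g) := by
  obtain ⟨c, hc⟩ := TT_comp_of_mem hl hlN hl1 hP g hg
  refine ⟨c, fun s => ?_⟩
  have h0 := DD_eq_zero_of_isInv hl hl1 hinv s
  have h1 : DD l (fun t => P (mapGL ℚ g • t)) s = DD l P s := by
    have := DD_add l P (fun s => P (mapGL ℚ g • s) - P s) s
    rw [h0, add_zero] at this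
    rw [← this]
    exact DD_congr l (fun t => by abel) s
  rw [← h1, DD, DD, hc]
  abel

theorem qInv_DD_trQ {l N q : ℕ} (hl : l.Prime) (hq : q ≠ 0)
    (hl1 : ((N * q * q : ℕ) : ℤ) ∣ (l : ℤ) - 1) {P : OnePoint ℚ → A}
    (hP : IsPot (Gamma0 (N * q * q)) P)
    (hinv : IsInv (Gamma0 (N * q * q)) (fun s => P (trQ q • s) - P s)) :
    QInv (DD l P) (trQ q) := by
  refine ⟨0, fun s => ?_⟩
  have he : ∃ e : ℕ, l = 1 + q * e := by
    obtain ⟨k, hk⟩ := hl1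
    have hk0 : 0 ≤ k := by
      by_contra hneg
      have hneg' : k ≤ 0 := by omega
      have h1 : (2 : ℤ) ≤ l := by exact_mod_cast hl.two_le
      have h2 : (0 : ℤ) ≤ ((N * q * q : ℕ) : ℤ) := Int.natCast_nonneg _
      have h3 := mul_nonpos_of_nonneg_of_nonpos h2 hneg'
      linarith
    obtain ⟨k', rfl⟩ := Int.eq_ofNat_of_zero_le hk0
    refine ⟨N * q * k', ?_⟩
    have : (l : ℤ) = ((1 + q * (N * q * k') : ℕ) : ℤ) := by
      push_cast at hk ⊢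
      linear_combination hk
    exact_mod_cast this
  obtain ⟨e, he⟩ := he
  have h0 := DD_eq_zero_of_isInv hl hl1 hinv s
  have h1 : DD l (fun t => P (trQ q • t)) s = DD l P s := by
    have := DD_add l P (fun s => P (trQ q • s) - P s) s
    rw [h0, add_zero] at this
    rw [← this]
    exact DD_congr l (fun t => by abel) s
  rw [← DD_comp_trQ hl.ne_zero hq he P hP.hT, h1, add_zero]

/-! ### the conjugates `δ⁻¹ γ δ` -/

theorem mapGL_T_mul_dgQ {q : ℕ} (hq : q ≠ 0) :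
    mapGL ℚ ModularGroup.T * dgQ q = dgQ q * trQ q := by
  have hq' : (q : ℚ) ≠ 0 := by exact_mod_cast hq
  ext i j
  rw [Matrix.GeneralLinearGroup.coe_mul, Matrix.GeneralLinearGroup.coe_mul, val_dgQ hq, trQ,
    val_utQ, Matrix.mul_apply, Matrix.mul_apply, Fin.sum_univ_two, Fin.sum_univ_two]
  have m00 : ∀ (k : SL(2, ℤ)) (i j : Fin 2),
      ((mapGL ℚ k : GL (Fin 2) ℚ) : Matrix (Fin 2) (Fin 2) ℚ) i j = ((k i j : ℤ) : ℚ) :=
    fun k i j => Fermat.Agent.S41.mapGL_apply k i j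
  simp only [m00]
  fin_cases i <;> fin_cases j <;> simp [ModularGroup.T, hq']

/-- `δ⁻¹ γ δ ∈ Γ₀(N q)` if `q ∣ b`. -/
theorem exists_conj_dgQ {N q : ℕ} (hq : q ≠ 0) (γ : SL(2, ℤ)) (hγ : γ ∈ Gamma0 N)
    (hb : (q : ℤ) ∣ γ 0 1) :
    ∃ g ∈ Gamma0 (N * q), mapGL ℚ γ * dgQ q = dgQ q * mapGL ℚ g := by
  have hq' : (q : ℚ) ≠ 0 := by exact_mod_cast hq
  obtain ⟨b', hb'⟩ := hb
  rw [mem_Gamma0_iff_dvd] at hγ
  obtain ⟨c', hc'⟩ := hγ
  have hdet : γ 0 0 * γ 1 1 - γ 0 1 * γ 1 0 = 1 := by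
    have := γ.det_coe
    rwa [Matrix.det_fin_two] at this
  let g : SL(2, ℤ) := ⟨!![γ 0 0, b'; (q : ℤ) * γ 1 0, γ 1 1], by
    rw [Matrix.det_fin_two_of]
    rw [hb'] at hdet
    linear_combination hdet⟩
  have e00 : g 0 0 = γ 0 0 := rfl
  have e01 : g 0 1 = b' := rfl
  have e10 : g 1 0 = (q : ℤ) * γ 1 0 := rfl
  have e11 : g 1 1 = γ 1 1 := rfl
  refine ⟨g, ?_, ?_⟩
  · rw [mem_Gamma0_iff_dvd]
    refine ⟨c', ?_⟩
    rw [e10, hc']; push_cast; ring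
  · ext i j
    rw [Matrix.GeneralLinearGroup.coe_mul, Matrix.GeneralLinearGroup.coe_mul, val_dgQ hq,
      Matrix.mul_apply, Matrix.mul_apply, Fin.sum_univ_two, Fin.sum_univ_two]
    have m00 : ∀ (k : SL(2, ℤ)) (i j : Fin 2),
        ((mapGL ℚ k : GL (Fin 2) ℚ) : Matrix (Fin 2) (Fin 2) ℚ) i j = ((k i j : ℤ) : ℚ) :=
      fun k i j => Fermat.Agent.S41.mapGL_apply k i j
    simp only [m00]
    fin_cases i <;> fin_cases j <;> simp [hb', e00, e01, e10, e11] <;> ring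

/-- every `γ ∈ SL₂(ℤ)` becomes `≡ (∗ 0; ∗ ∗) mod q` after translations. -/
theorem exists_T_mul_T {q : ℕ} (hq : q.Prime) (γ : SL(2, ℤ)) :
    ∃ i k : ℤ, (q : ℤ) ∣ (ModularGroup.T ^ i * γ * ModularGroup.T ^ k) 0 1 := by
  have hdet : γ 0 0 * γ 1 1 - γ 0 1 * γ 1 0 = 1 := by
    have := γ.det_coe
    rwa [Matrix.det_fin_two] at this
  have hent : ∀ i k : ℤ, (ModularGroup.T ^ i * γ * ModularGroup.T ^ k) 0 1
      = (γ 0 0 + i * γ 1 0) * k + (γ 0 1 + i * γ 1 1) := by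
    intro i k
    rw [Matrix.SpecialLinearGroup.coe_mul, Matrix.SpecialLinearGroup.coe_mul,
      ModularGroup.coe_T_zpow, ModularGroup.coe_T_zpow, Matrix.mul_apply, Fin.sum_univ_two,
      Matrix.mul_apply, Matrix.mul_apply, Fin.sum_univ_two, Fin.sum_univ_two]
    simp
  have hqZ : Prime (q : ℤ) := Nat.prime_iff_prime_int.mp hq
  have key : ∀ i : ℤ, ¬ (q : ℤ) ∣ γ 0 0 + i * γ 1 0 →
      ∃ k : ℤ, (q : ℤ) ∣ (ModularGroup.T ^ i * γ * ModularGroup.T ^ k) 0 1 := by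
    intro i hi
    have hcop : IsCoprime (q : ℤ) (γ 0 0 + i * γ 1 0) :=
      (Prime.coprime_iff_not_dvd hqZ).mpr hi
    obtain ⟨u, v, huv⟩ := hcop
    refine ⟨-v * (γ 0 1 + i * γ 1 1), ?_⟩
    rw [hent]
    refine ⟨u * (γ 0 1 + i * γ 1 1), ?_⟩
    linear_combination (-(γ 0 1 + i * γ 1 1)) * huv
  by_cases h0 : (q : ℤ) ∣ γ 0 0
  · refine ⟨1, key 1 ?_⟩
    intro h1
    have h2 : (q : ℤ) ∣ γ 1 0 := by
      have := dvd_sub h1 h0
      simpa using this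
    have h3 : (q : ℤ) ∣ 1 := by
      rw [← hdet]
      exact dvd_sub (h0.mul_right _) (h2.mul_left _)
    exact hqZ.not_isUnit (isUnit_of_dvd_one h3)
  · exact ⟨0, key 0 (by simpa using h0)⟩

/-- **The soft Carayol descent.** -/
theorem car_soft {l N q : ℕ} (hq : q.Prime) (hl : l.Prime)
    (hl1 : ((N * q * q : ℕ) : ℤ) ∣ (l : ℤ) - 1) (Γ : Subgroup SL(2, ℤ)) (hΓ : Γ ≤ Gamma0 N)
    (hT : ModularGroup.T ∈ Γ) {P : OnePoint ℚ → A} (hP : IsPot (Gamma0 (N * q * q)) P)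
    (hinv : ∀ γ ∈ Γ, IsInv (Gamma0 (N * q * q))
      (fun s => P ((dgQ q)⁻¹ • mapGL ℚ γ • dgQ q • s) - P s)) :
    IsPot Γ (fun s => DD l P ((dgQ q)⁻¹ • s)) := by
  have hq0 : q ≠ 0 := hq.ne_zero
  have hlN : ¬ l ∣ N * q := by
    intro h
    have h1 : (l : ℤ) ∣ ((N * q * q : ℕ) : ℤ) := by exact_mod_cast h.mul_right q
    have h2 : (l : ℤ) ∣ 1 := by
      have := dvd_sub (dvd_refl (l : ℤ)) (h1.trans hl1)
      simpa using this
    have h3 : l ∣ 1 := by exact_mod_cast h2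
    exact hl.one_lt.ne' (Nat.dvd_one.mp h3)
  have conj : ∀ (B C : GL (Fin 2) ℚ) (γ : SL(2, ℤ)), mapGL ℚ γ * dgQ q = dgQ q * C →
      ∀ s : OnePoint ℚ, (dgQ q)⁻¹ • mapGL ℚ γ • dgQ q • s = C • s := by
    intro _ C γ h s
    rw [← mul_smul (mapGL ℚ γ), h, mul_smul, inv_smul_smul]
  -- the translation
  have htr : QInv (DD l P) (trQ q) := by
    refine qInv_DD_trQ hl hq0 hl1 hP ?_
    have := hinv _ hT
    simpa only [conj 1 _ _ (mapGL_T_mul_dgQ hq0)] using this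
  intro γ hγ
  obtain ⟨i, k, hik⟩ := exists_T_mul_T hq γ
  have hγ₀ : ModularGroup.T ^ i * γ * ModularGroup.T ^ k ∈ Γ :=
    Γ.mul_mem (Γ.mul_mem (Γ.zpow_mem hT i) hγ) (Γ.zpow_mem hT k)
  obtain ⟨g, hg, hgc⟩ := exists_conj_dgQ hq0 _ (hΓ hγ₀) hik
  have hgq : QInv (DD l P) (mapGL ℚ g) := by
    refine qInv_DD_of_mem hl hlN hl1 hP g hg ?_
    have := hinv _ hγ₀
    simpa only [conj 1 _ _ hgc] using this
  have hTz : ∀ n : ℤ, mapGL ℚ (ModularGroup.T ^ n) * dgQ q = dgQ q * trQ q ^ n := by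
    intro n
    have h1 : mapGL ℚ ModularGroup.T = dgQ q * trQ q * (dgQ q)⁻¹ := by
      rw [← mapGL_T_mul_dgQ hq0, mul_inv_cancel_right]
    rw [map_zpow, h1, conj_zpow, inv_mul_cancel_right]
  have hfin : mapGL ℚ γ * dgQ q = dgQ q * ((trQ q ^ i)⁻¹ * mapGL ℚ g * (trQ q ^ k)⁻¹) := by
    have h1 : mapGL ℚ γ = (mapGL ℚ (ModularGroup.T ^ i))⁻¹
        * mapGL ℚ (ModularGroup.T ^ i * γ * ModularGroup.T ^ k)
        * (mapGL ℚ (ModularGroup.T ^ k))⁻¹ := by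
      rw [map_mul, map_mul]; group
    have h2 : ∀ n : ℤ, (mapGL ℚ (ModularGroup.T ^ n))⁻¹ * dgQ q = dgQ q * (trQ q ^ n)⁻¹ := by
      intro n
      rw [inv_mul_eq_iff_eq_mul, ← mul_assoc, hTz, mul_assoc, mul_inv_cancel, mul_one]
    rw [h1, mul_assoc, h2, ← mul_assoc, mul_assoc _ _ (dgQ q), hgc, ← mul_assoc, h2]
    simp only [mul_assoc]
  obtain ⟨c, hc⟩ := (((htr.zpow i).inv.mul hgq).mul (htr.zpow k).inv)
  refine ⟨c, fun s => ?_⟩
  have := hc ((dgQ q)⁻¹ • s)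
  show DD l P ((dgQ q)⁻¹ • mapGL ℚ γ • s) = DD l P ((dgQ q)⁻¹ • s) + c
  rw [← this, ← mul_smul, ← mul_smul]
  congr 2
  rw [eq_comm, ← mul_left_cancel_iff (a := dgQ q), ← mul_assoc, ← hfin]
  simp

end

end Fermat.Agent.ML.At2
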