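import Fermat.Agent.ML.At2.Car3.Gen
import Fermat.Agent.ML.At2.Car.Ell
import Fermat.Agent.ML.At2.Car.Bridge4P

/-!
# ML / AT-2 / (E2), [CAR2], [INV4] : back from the potentials to `J₀`

`y ∈ J₀(N q²)[m]` the Kummer class of `bd P`.  If `F = (DD l P) ∘ δ⁻¹` is a potential for `Γ₀(N)`
(`car_soft_A`), then `T_r (bd F)` is a good homomorphism (`TH_mem_goodHom`), hence the Kummer
character of some `x ∈ J₀(N)[m]`, and `α^* β^* x = T_r (T_l - l - 1) y`.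
Same with `Γ₀(N q)` (`car_soft_C`) : `x ∈ J₀(N q)[m]`, `β^* x = T_r (T_l - l - 1) y`.
-/

set_option autoImplicit false
set_option linter.unusedSectionVars false

open AlgebraicCurve ModularCurve CongruenceSubgroup OnePoint ModularForm
open scoped MatrixGroups
open Matrix.SpecialLinearGroup (mapGL)

namespace Fermat.Agent.ML.At2

open Fermat.Agent.GAL Fermat.Agent.GAL.PC Fermat.Agent.S41 Fermat.Agent.S41.Soft Fermat.Agent.RIB
  Fermat.Agent.ML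

noncomputable section

variable {m : ℕ} [NeZero m]

/-- the Kummer class of `bd (TT r u)` is `T_r x`. -/
theorem isKummer_TT {M : ℕ} [NeZero M] (r : Nat.Primes) (hrM : ¬ (r : ℕ) ∣ M)
    (u : Symb (Gamma0 M) (ZMod m)) {x : JZero M}
    (h : IsKummer M m (chiOf (bd (Gamma0 M) (ZMod m) u : Additive (Gamma0 M) →+ ZMod m)) x)
    (hu' : TT r u.1 ∈ Symb (Gamma0 M) (ZMod m)) :
    IsKummer M m (chiOf (bd (Gamma0 M) (ZMod m) ⟨TT r u.1, hu'⟩ :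
      Additive (Gamma0 M) →+ ZMod m)) (heckeOperatorBar M r x) := by
  have : NeZero (r : ℕ) := ⟨r.2.ne_zero⟩
  have h1 := h.hecke r hrM (isTransfer_TH r.2 hrM (bd (Gamma0 M) (ZMod m) u)).chiOf
  have e : TH (ZMod m) M r (bd (Gamma0 M) (ZMod m) u)
      = bd (Gamma0 M) (ZMod m) ⟨TT r u.1, hu'⟩ := by
    rw [TH, opH_bd (isOp_T r.2 hrM)]
    congr 1
    apply Subtype.ext
    exact opT_eq_TT r u.1
  rwa [e] at h1

theorem TT_mem_Symb {M : ℕ} {r : ℕ} (hr : r.Prime) (hrM : ¬ r ∣ M) {u : OnePoint ℚ → ZMod m}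
    (hu : u ∈ Symb (Gamma0 M) (ZMod m)) : TT r u ∈ Symb (Gamma0 M) (ZMod m) :=
  mem_Symb_iff_soft.2 ((mem_Symb_iff_soft.1 hu).TT hr hrM)

theorem DD_mem_Symb {M : ℕ} {r : ℕ} (hr : r.Prime) (hrM : ¬ r ∣ M) {u : OnePoint ℚ → ZMod m}
    (hu : u ∈ Symb (Gamma0 M) (ZMod m)) : DD r u ∈ Symb (Gamma0 M) (ZMod m) :=
  mem_Symb_iff_soft.2 ((mem_Symb_iff_soft.1 hu).DD hr hrM)

/-- the Kummer class of `bd (DD l u)` is `(T_l - l - 1) x`. -/
theorem isKummer_DD {M : ℕ} [NeZero M] (l : Nat.Primes) (hlM : ¬ (l : ℕ) ∣ M)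
    (u : Symb (Gamma0 M) (ZMod m)) {x : JZero M}
    (h : IsKummer M m (chiOf (bd (Gamma0 M) (ZMod m) u : Additive (Gamma0 M) →+ ZMod m)) x)
    (hu' : DD l u.1 ∈ Symb (Gamma0 M) (ZMod m)) :
    IsKummer M m (chiOf (bd (Gamma0 M) (ZMod m) ⟨DD l u.1, hu'⟩ :
      Additive (Gamma0 M) →+ ZMod m)) (eis M l x) := by
  have h1 := isKummer_eis l hlM _ h
  obtain ⟨_, e1⟩ := TH_sub_bd_gen l.2 hlM u
  rwa [e1] at h1

/-- the point attached to `T_r (bd F)`. -/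
theorem exists_isKummer_TT {M : ℕ} [NeZero M] (hm : Odd m) (r : Nat.Primes) (hr3 : (r : ℕ) % 3 = 2)
    (hrM : ¬ (r : ℕ) ∣ M) (F : Symb (Gamma0 M) (ZMod m))
    (hu' : TT r F.1 ∈ Symb (Gamma0 M) (ZMod m)) :
    ∃ x : JZero M, m • x = 0 ∧ IsKummer M m (chiOf (bd (Gamma0 M) (ZMod m) ⟨TT r F.1, hu'⟩ :
      Additive (Gamma0 M) →+ ZMod m)) x := by
  obtain ⟨x, hx, hk⟩ := exists_kumRel_TH hm r.2 hr3 hrM (bd (Gamma0 M) (ZMod m) F)
  refine ⟨x, hx, ?_⟩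
  have e : TH (ZMod m) M r (bd (Gamma0 M) (ZMod m) F)
      = bd (Gamma0 M) (ZMod m) ⟨TT r F.1, hu'⟩ := by
    rw [TH, opH_bd (isOp_T r.2 hrM)]
    congr 1
    apply Subtype.ext
    exact opT_eq_TT r F.1
  rw [KumRel, e] at hk
  exact hk

theorem isKummer_congr {M : ℕ} [NeZero M] {u v : Symb (Gamma0 M) (ZMod m)} (huv : u.1 = v.1)
    {x : JZero M}
    (h : IsKummer M m (chiOf (bd (Gamma0 M) (ZMod m) u : Additive (Gamma0 M) →+ ZMod m)) x) :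
    IsKummer M m (chiOf (bd (Gamma0 M) (ZMod m) v : Additive (Gamma0 M) →+ ZMod m)) x := by
  have : u = v := Subtype.ext huv
  rwa [← this]

variable {N q : ℕ} [NeZero N] [NeZero q]

/-- **(iii), case `C`** : `F = (DD l P) ∘ δ⁻¹` a potential for `Γ₀(M)`, `P` a potential for
`Γ₀(M q)`. -/
theorem car_back_one {M : ℕ} [NeZero M] (hm : Odd m) (l r : Nat.Primes)
    (hlM : ¬ (l : ℕ) ∣ M * q) (hr3 : (r : ℕ) % 3 = 2) (hrM : ¬ (r : ℕ) ∣ M * q)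
    (P : Symb (Gamma0 (M * q)) (ZMod m)) {y : JZero (M * q)}
    (hk : IsKummer (M * q) m
      (chiOf (bd (Gamma0 (M * q)) (ZMod m) P : Additive (Gamma0 (M * q)) →+ ZMod m)) y)
    (hF : IsPot (Gamma0 M) (fun s => DD l P.1 ((dgQ q)⁻¹ • s))) :
    ∃ x : JZero M, m • x = 0 ∧
      pullB M q x = heckeOperatorBar (M * q) r (eis (M * q) l y) := by
  have hq0 : q ≠ 0 := NeZero.ne q
  have hrM' : ¬ (r : ℕ) ∣ M := fun h => hrM (h.mul_right q)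
  have hrq : Nat.Coprime q r := by
    rw [Nat.coprime_comm, Nat.Prime.coprime_iff_not_dvd r.2]
    exact fun h => hrM (h.mul_left M)
  let F : Symb (Gamma0 M) (ZMod m) := ⟨fun s => DD l P.1 ((dgQ q)⁻¹ • s), mem_Symb_iff_soft.2 hF⟩
  have hTF : TT r F.1 ∈ Symb (Gamma0 M) (ZMod m) := TT_mem_Symb r.2 hrM' F.2
  obtain ⟨x, hx, hkx⟩ := exists_isKummer_TT hm r hr3 hrM' F hTF
  refine ⟨x, hx, ?_⟩
  have hB := isKummer_pullB_bd q ⟨TT r F.1, hTF⟩ hkx (comp_dgQ_mem_Symb q hTF)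
  have hD : DD l P.1 ∈ Symb (Gamma0 (M * q)) (ZMod m) := DD_mem_Symb l.2 hlM P.2
  have hTD : TT r (DD l P.1) ∈ Symb (Gamma0 (M * q)) (ZMod m) := TT_mem_Symb r.2 hrM hD
  have hy := isKummer_TT r hrM ⟨DD l P.1, hD⟩ (isKummer_DD l hlM P hk hD) hTD
  refine (isKummer_congr ?_ hB).unique hy
  funext s
  show TT r F.1 (dgQ q • s) = TT r (DD l P.1) s
  rw [← TT_comp_dgQ r.2.ne_zero hq0 hrq F.1 hF.hT]
  congr 1
  funext t
  show DD l P.1 ((dgQ q)⁻¹ • dgQ q • t) = DD l P.1 t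
  rw [inv_smul_smul]

/-- **(iii), case `A`** : `F = (DD l P) ∘ δ⁻¹` a potential for `Γ₀(N)`, `P` a potential for
`Γ₀(N q²)`. -/
theorem car_back (hm : Odd m) (l r : Nat.Primes)
    (hlM : ¬ (l : ℕ) ∣ N * q * q) (hr3 : (r : ℕ) % 3 = 2) (hrM : ¬ (r : ℕ) ∣ N * q * q)
    (P : Symb (Gamma0 (N * q * q)) (ZMod m)) {y : JZero (N * q * q)}
    (hk : IsKummer (N * q * q) m
      (chiOf (bd (Gamma0 (N * q * q)) (ZMod m) P : Additive (Gamma0 (N * q * q)) →+ ZMod m)) y)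
    (hF : IsPot (Gamma0 N) (fun s => DD l P.1 ((dgQ q)⁻¹ • s))) :
    ∃ x : JZero N, m • x = 0 ∧
      pullA (N * q) q (pullB N q x) = heckeOperatorBar (N * q * q) r (eis (N * q * q) l y) := by
  have hq0 : q ≠ 0 := NeZero.ne q
  have hrN : ¬ (r : ℕ) ∣ N := fun h => hrM ((h.mul_right q).mul_right q)
  have hrq : Nat.Coprime q r := by
    rw [Nat.coprime_comm, Nat.Prime.coprime_iff_not_dvd r.2]
    exact fun h => hrM (h.mul_left (N * q))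
  let F : Symb (Gamma0 N) (ZMod m) := ⟨fun s => DD l P.1 ((dgQ q)⁻¹ • s), mem_Symb_iff_soft.2 hF⟩
  have hTF : TT r F.1 ∈ Symb (Gamma0 N) (ZMod m) := TT_mem_Symb r.2 hrN F.2
  obtain ⟨x, hx, hkx⟩ := exists_isKummer_TT hm r hr3 hrN F hTF
  refine ⟨x, hx, ?_⟩
  have hs1 := comp_dgQ_mem_Symb q hTF
  have hB := isKummer_pullB_bd q ⟨TT r F.1, hTF⟩ hkx hs1
  have hs2 : (fun s => TT r F.1 (dgQ q • s)) ∈ Symb (Gamma0 (N * q * q)) (ZMod m) :=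
    (isOp_res (S41.Gamma0_mul_le (N * q) q)).symb _ hs1
  have hA := isKummer_pullA_bd q ⟨fun s => TT r F.1 (dgQ q • s), hs1⟩ hB hs2
  have hD : DD l P.1 ∈ Symb (Gamma0 (N * q * q)) (ZMod m) := DD_mem_Symb l.2 hlM P.2
  have hTD : TT r (DD l P.1) ∈ Symb (Gamma0 (N * q * q)) (ZMod m) := TT_mem_Symb r.2 hrM hD
  have hy := isKummer_TT r hrM ⟨DD l P.1, hD⟩ (isKummer_DD l hlM P hk hD) hTD
  refine (isKummer_congr ?_ hA).unique hy
  funext s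
  show TT r F.1 (dgQ q • s) = TT r (DD l P.1) s
  rw [← TT_comp_dgQ r.2.ne_zero hq0 hrq F.1 hF.hT]
  congr 1
  funext t
  show DD l P.1 ((dgQ q)⁻¹ • dgQ q • t) = DD l P.1 t
  rw [inv_smul_smul]

end

end Fermat.Agent.ML.At2
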