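import Fermat.Agent.ML.At2.Car3.Main
import Fermat.Agent.ML.At2.Ops.Pot
import Fermat.Agent.ML.At2.KeyEq.Inst
import Fermat.Agent.ML.At2.PrimeR5

/-!
# ML / AT-2 / (E2) : `E2AStmt`, `E2BStmt`, hence `Lower2Stmt`

`y ∈ W(9 M)` invariant under `t` and `w₉` (`3 ∤ M`), resp. `y ∈ W(3 M)` invariant under `t`
(`3 ∣ M`).  The potential of `y` satisfies the hypotheses of the soft Carayol descent
(`Ops/Pot.lean`), so `y` is a pull-back of an element of the `θ`-part of `J₀(M)`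
(`car_main_A`, `car_main_C`), which vanishes.
-/

set_option autoImplicit false
set_option linter.unusedSectionVars false

open AlgebraicCurve ModularCurve CongruenceSubgroup OnePoint ModularForm
open scoped MatrixGroups
open Matrix.SpecialLinearGroup (mapGL)

namespace Fermat.Agent.ML.At2

open Fermat.Agent.GAL Fermat.Agent.GAL.PC Fermat.Agent.S41 Fermat.Agent.S41.Soft Fermat.Agent.RIB
  Fermat.Agent.ML

local notation "Qbar" => AlgebraicClosure ℚ
local notation "GQ" => (AlgebraicClosure ℚ ≃ₐ[ℚ] AlgebraicClosure ℚ)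
local notation "M₂" => Matrix (Fin 2) (Fin 2)

noncomputable section

theorem nrm1_trQ_three_of_dvd {M : ℕ} (h3 : 3 ∣ M) : Nrm1 (Gamma0 (M * 3)) (trQ 3) := by
  obtain ⟨N, rfl⟩ := exists_eq_mul_left_of_dvd h3
  rw [← tQ_one_eq_trQ]
  exact nrm1_tQ (by norm_num) sq1_three 1

/-- **(E2), case `3 ∣ M`.** -/
theorem e2BStmt_soft : E2BStmt := by
  intro p _ hp35 T θ rbar0 C M _ _ h3M _ hlev h0 h9 y hy ht
  have hp : p.Prime := Fact.out
  have : NeZero p := ⟨hp.ne_zero⟩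
  obtain ⟨r, hr, hrT, -, hr3, hθr⟩ := C.exists_prime_two_mod_three_all hp35 ∅
  have hS : ∀ r : ℕ, r.Prime → r ∉ (↑T : Set ℕ) → ¬ r ∣ M * 3 * p := by
    intro r hr hrT hd
    apply hrT
    apply hlev r hr
    rcases (Nat.Prime.dvd_mul hr).1 hd with h | h
    · rcases (Nat.Prime.dvd_mul hr).1 h with h | h
      · exact (h.mul_right 2).mul_right p
      · exact ((h.trans h3M).mul_right 2).mul_right p
    · exact h.mul_left _
  obtain ⟨P, hk⟩ := exists_symb_of_torsion (m := p) hy.2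
  have htr := isInv_trQ_of_tHom h9 (nrm1_trQ_three_of_dvd h3M) hk (ht omega3 omega3_pow)
  obtain ⟨x', hx', e⟩ := car_main_C (S := (↑T : Set ℕ)) (θ := θ) hp C.hp2 Nat.prime_three h3M
    (C.nonEis T) hS ⟨r, hr⟩ hrT hr3 hθr (n := 1) (pow_one p).symm hy.1 P hk htr
  rw [thetaPart_eq_bot_of_WS_eq_bot h0, AddSubgroup.mem_bot] at hx'
  rw [← e, hx', map_zero]

/-- **(E2), case `3 ∤ M`.** -/
theorem e2AStmt_soft : E2AStmt := by
  intro p _ hp35 T θ rbar0 C h3T M _ _ h3M _ hlev h0 h9 hL a b h y hy ht hw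
  have hp : p.Prime := Fact.out
  have : NeZero p := ⟨hp.ne_zero⟩
  obtain ⟨r, hr, hrT, -, hr3, hθr⟩ := C.exists_prime_two_mod_three_all hp35 ∅
  have hS : ∀ r : ℕ, r.Prime → r ∉ (↑T : Set ℕ) → ¬ r ∣ M * 3 * 3 * p := by
    intro r hr hrT hd
    apply hrT
    have h3 : r ∣ 3 → r ∈ (↑T : Set ℕ) := fun h => by
      rw [(Nat.prime_dvd_prime_iff_eq hr Nat.prime_three).1 h]; exact h3T
    rcases (Nat.Prime.dvd_mul hr).1 hd with h | h
    · rcases (Nat.Prime.dvd_mul hr).1 h with h | h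
      · rcases (Nat.Prime.dvd_mul hr).1 h with h | h
        · exact hlev r hr ((h.mul_right 2).mul_right p)
        · exact h3 h
      · exact h3 h
    · exact hlev r hr (h.mul_left _)
  obtain ⟨P, hk⟩ := exists_symb_of_torsion (m := p) hy.2
  have hP := mem_Symb_iff_soft.1 P.2
  have h1 := isInv_trQ_of_tHom h9 nrm1_trQ_three hk (ht omega3 omega3_pow)
  have h2 := isInv_wQ_of_wHom M 9 hL a b h hk hw
  have ht' : tQ 3 1 ∈ stab (Gamma0 (M * 3 * 3)) P.1 :=
    tQ_mem_stab (by norm_num) sq1_three (by rw [tQ_one_eq_trQ]; exact h1)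
  have hw' : wQ M (3 * 3) a b h ∈ stab (Gamma0 (M * 3 * 3)) P.1 := wQ_mem_stab h2
  obtain ⟨x', hx', e⟩ := car_main_A (S := (↑T : Set ℕ)) (θ := θ) hp C.hp2 Nat.prime_three h3M
    (C.nonEis T) h3T hS ⟨r, hr⟩ hrT hr3 hθr (n := 1) (pow_one p).symm hy.1 P hk h1
    (fun g hg => (mapGL_mem_of_mem_Gamma0_mul Nat.prime_three h3M
      (fun _ hg' => mapGL_mem_stab hP hg') ht' hw' g hg).2)
  rw [thetaPart_eq_bot_of_WS_eq_bot h0, AddSubgroup.mem_bot] at hx'
  rw [← e, hx', map_zero, map_zero]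

/-- **Mazur's principle at `2` at the non rigid level `2 M`.** -/
theorem lower2Stmt_soft : Lower2Stmt := lower2_of_e2 e2AStmt_soft e2BStmt_soft

/-- **AT-2** : the contract `Type2Stmt` of layer 1. -/
theorem type2Stmt_soft : Type2Stmt := type2Stmt_of lower2Stmt_soft

end

end Fermat.Agent.ML.At2
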