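import Fermat.Agent.ML.Ihara.J0

/-!
# ML / AT-2 / (E2) : `α^* : J₀(M) → J₀(M q)` is injective on torsion when `q ∣ M`

(The covering `X₀(M q) → X₀(M)` is totally ramified at the cusp `0`.)  Betti proof: a potential for
`Γ₀(M)` which is `Γ₀(M q)`-invariant is `Γ₀(M)`-invariant, because
`Γ₀(M) = ⋃_i Γ₀(M q) [[1,0],[M,1]]^i` and a potential is invariant under parabolic elements.
No condition on the order of the torsion point (`p = q` is allowed).
-/

set_option autoImplicit false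
set_option linter.unusedSectionVars false

open AlgebraicCurve ModularCurve CongruenceSubgroup OnePoint ModularForm
open scoped MatrixGroups
open Matrix.SpecialLinearGroup (mapGL)

namespace Fermat.Agent.ML.At2

open Fermat.Agent.GAL Fermat.Agent.GAL.PC Fermat.Agent.S41 Fermat.Agent.RIB Fermat.Agent.ML

noncomputable section

/-- `Γ₀(M) = ⋃_i Γ₀(M q) V^i`, `V = [[1,0],[M,1]]`, `q ∣ M`. -/
theorem exists_mul_Lw_mem {M q : ℕ} (hq : q.Prime) (hqM : q ∣ M) (g : SL(2, ℤ))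
    (hg : g ∈ Gamma0 M) : ∃ i : ℤ, g * Soft.Lw M i ∈ Gamma0 (M * q) := by
  have hdet : g 0 0 * g 1 1 - g 0 1 * g 1 0 = 1 := by
    have := g.det_coe
    rwa [Matrix.det_fin_two] at this
  rw [mem_Gamma0_iff_dvd] at hg
  obtain ⟨c', hc'⟩ := hg
  have hqZ : Prime (q : ℤ) := Nat.prime_iff_prime_int.mp hq
  have hqM' : (q : ℤ) ∣ (M : ℤ) := by exact_mod_cast hqM
  have hd : ¬ (q : ℤ) ∣ g 1 1 := by
    intro h
    have h3 : (q : ℤ) ∣ 1 := by
      rw [← hdet, hc']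
      exact dvd_sub (h.mul_left _) ((hqM'.mul_right _).mul_left _)
    exact hqZ.not_isUnit (isUnit_of_dvd_one h3)
  obtain ⟨u, v, huv⟩ := (Prime.coprime_iff_not_dvd hqZ).mpr hd
  refine ⟨-v * c', ?_⟩
  rw [mem_Gamma0_iff_dvd]
  have hent : (g * Soft.Lw M (-v * c')) 1 0 = g 1 0 + g 1 1 * ((M : ℤ) * (-v * c')) := by
    rw [Matrix.SpecialLinearGroup.coe_mul, Matrix.mul_apply, Fin.sum_univ_two]
    have e00 : (Soft.Lw M (-v * c')) 0 0 = 1 := rfl
    have e10 : (Soft.Lw M (-v * c')) 1 0 = (M : ℤ) * (-v * c') := rfl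
    rw [e00, e10, mul_one]
  rw [hent, hc']
  refine ⟨u * c', ?_⟩
  push_cast
  linear_combination (-(M : ℤ) * c') * huv

variable {A : Type*} [AddCommGroup A]

/-- a potential for `Γ₀(M)` which is `Γ₀(M q)`-invariant is `Γ₀(M)`-invariant (`q ∣ M`). -/
theorem isInv_of_isInv_mul {M q : ℕ} (hq : q.Prime) (hqM : q ∣ M) {P : OnePoint ℚ → A}
    (hP : Soft.IsPot (Gamma0 M) P) (hinv : Soft.IsInv (Gamma0 (M * q)) P) :
    Soft.IsInv (Gamma0 M) P := by
  intro g hg s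
  obtain ⟨i, hi⟩ := exists_mul_Lw_mem hq hqM g hg
  have h1 := hinv _ hi ((mapGL ℚ (Soft.Lw M i))⁻¹ • s)
  rw [map_mul, mul_smul, smul_inv_smul] at h1
  rw [h1]
  have h2 := hP.inv_Lw i ((mapGL ℚ (Soft.Lw M i))⁻¹ • s)
  rw [smul_inv_smul] at h2
  exact h2.symm

variable {M m : ℕ} [NeZero M] [NeZero m] (q : ℕ) [NeZero q]

/-- `α^* : J₀(M) → J₀(M q)` is injective on torsion when `q ∣ M`. -/
theorem eq_zero_of_pullA_eq_zero (hq : q.Prime) (hqM : q ∣ M) {z : JZero M} (hz : m • z = 0)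
    (h : pullA M q z = 0) : z = 0 := by
  obtain ⟨c, hc⟩ := exists_goodHom_of_torsion M m z hz
  obtain ⟨u, hu⟩ := bd_surjective (⟨_, goodHom_mem_HH c⟩ : HH (ZMod m) M)
  have hk : IsKummer M m
      (chiOf (bd (Gamma0 M) (ZMod m) u : Additive (Gamma0 M) →+ ZMod m)) z := by
    rw [hu]; exact hc
  have hs : u.1 ∈ Symb (Gamma0 (M * q)) (ZMod m) :=
    (isOp_res (Gamma0_mul_le M q)).symb u.1 u.2
  have hA := isKummer_pullA_bd q u hk hs
  rw [h] at hA
  have h1 := hA.eq_one_of_zero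
  rw [← chiOf_zero (N := M * q) (m := m)] at h1
  have h2 := chiOf_injective h1
  have h3 : bd (Gamma0 (M * q)) (ZMod m) (⟨u.1, hs⟩ : Symb (Gamma0 (M * q)) (ZMod m)) = 0 :=
    Subtype.ext h2
  have hinv : Soft.IsInv (Gamma0 (M * q)) u.1 := (bd_eq_zero_iff _).1 h3
  have hinv' : Soft.IsInv (Gamma0 M) u.1 :=
    isInv_of_isInv_mul hq hqM (mem_Symb_iff_soft.1 u.2) hinv
  rw [(bd_eq_zero_iff u).2 hinv', Submodule.coe_zero, chiOf_zero] at hk
  exact hk.unique (isKummer_one_zero M m)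

end

end Fermat.Agent.ML.At2
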