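import Fermat.Agent.ML.At2.Car3.Back
import Fermat.Agent.ML.At2.Car3.Inv

/-!
# ML / AT-2 / (E2), [CAR2], [INV4] : the soft Carayol descent on the `θ`-parts

* `car_main_A` : `y` in the `θ`-part of `J₀(N q²)`, Kummer class of `bd P` with `P ∘ t - P` and
  `P ∘ g - P` (`g ∈ Γ₀(N q)`) invariant under `Γ₀(N q²)`  ⟹  `y = α^* β^* x'`, `x'` in the `θ`-part
  of `J₀(N)`;
* `car_main_C` : only `P ∘ t - P` invariant, level `M q`, `q ∣ M`  ⟹  `y = β^* x'`, `x'` in the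
  `θ`-part of `J₀(M)`.
-/

set_option autoImplicit false
set_option linter.unusedSectionVars false

open AlgebraicCurve ModularCurve CongruenceSubgroup OnePoint ModularForm
open scoped MatrixGroups
open Matrix.SpecialLinearGroup (mapGL)

namespace Fermat.Agent.ML.At2

open Fermat.Agent.GAL Fermat.Agent.GAL.PC Fermat.Agent.S41 Fermat.Agent.S41.Soft Fermat.Agent.RIB
  Fermat.Agent.ML

local notation "GQ" => (AlgebraicClosure ℚ ≃ₐ[ℚ] AlgebraicClosure ℚ)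

noncomputable section

/-! ### `β^*` is injective on torsion -/

/-- a potential `u` for `Γ₀(M)` such that `u ∘ δ` is `Γ₀(M q)`-invariant is `Γ₀(M)`-invariant. -/
theorem isInv_of_isInv_comp_dgQ {A : Type*} [AddCommGroup A] {M q : ℕ} (hq : q.Prime)
    {u : OnePoint ℚ → A} (hu : IsPot (Gamma0 M) u)
    (hinv : IsInv (Gamma0 (M * q)) (fun s => u (dgQ q • s))) : IsInv (Gamma0 M) u := by
  intro γ hγ s
  obtain ⟨i, k, hik⟩ := exists_T_mul_T hq γ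
  have hγ₀ : ModularGroup.T ^ i * γ * ModularGroup.T ^ k ∈ Gamma0 M :=
    (Gamma0 M).mul_mem ((Gamma0 M).mul_mem (T_zpow_mem M i) hγ) (T_zpow_mem M k)
  obtain ⟨g, hg, hgc⟩ := exists_conj_dgQ hq.ne_zero _ hγ₀ hik
  have h0 : ∀ t, u (mapGL ℚ (ModularGroup.T ^ i * γ * ModularGroup.T ^ k) • t) = u t := by
    intro t
    have := hinv g hg ((dgQ q)⁻¹ • t)
    simp only at this
    rwa [← mul_smul, ← hgc, mul_smul, smul_inv_smul] at this
  have h1 := h0 ((mapGL ℚ (ModularGroup.T ^ k))⁻¹ • s)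
  rw [map_mul, map_mul, mul_smul, mul_smul, smul_inv_smul, hu.inv_T_zpow] at h1
  rw [h1]
  have h2 := hu.inv_T_zpow k ((mapGL ℚ (ModularGroup.T ^ k))⁻¹ • s)
  rw [smul_inv_smul] at h2
  exact h2.symm

/-- `β^* : J₀(M) → J₀(M q)` is injective on torsion (any level `M`, any prime `q`). -/
theorem eq_zero_of_pullB_eq_zero {M m : ℕ} [NeZero M] [NeZero m] (q : ℕ) [NeZero q]
    (hq : q.Prime) {z : JZero M} (hz : m • z = 0) (h : pullB M q z = 0) : z = 0 := by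
  obtain ⟨u, hk⟩ := exists_symb_of_torsion hz
  have hs := comp_dgQ_mem_Symb q u.2
  have hB := isKummer_pullB_bd q u hk hs
  rw [h] at hB
  have h1 := hB.eq_one_of_zero
  rw [← chiOf_zero (N := M * q) (m := m)] at h1
  have h2 := chiOf_injective h1
  have h3 : bd (Gamma0 (M * q)) (ZMod m)
      (⟨fun s => u.1 (dgQ q • s), hs⟩ : Symb (Gamma0 (M * q)) (ZMod m)) = 0 := Subtype.ext h2
  have hinv : IsInv (Gamma0 (M * q)) (fun s => u.1 (dgQ q • s)) := (bd_eq_zero_iff _).1 h3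
  have hinv' : IsInv (Gamma0 M) u.1 := isInv_of_isInv_comp_dgQ hq (mem_Symb_iff_soft.1 u.2) hinv
  rw [(bd_eq_zero_iff u).2 hinv', Submodule.coe_zero, chiOf_zero] at hk
  exact hk.unique (isKummer_one_zero M m)

/-! ### exact image, for a map which is injective on torsion -/

variable {p : ℕ} {S : Set ℕ} {θ : ℕ → ℤ}

theorem car_image_inj {N N' : ℕ} [NeZero N] [NeZero N'] (hp : p.Prime) (d : JZero N →+ JZero N')
    (hdσ : ∀ (σ : GQ) x, d (σ • x) = σ • d x)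
    (hS : ∀ r : ℕ, r.Prime → r ∉ S → ¬ r ∣ N * p ∧ ¬ r ∣ N' * p)
    (hinj : ∀ x ∈ ptors (JZero N) p, d x = 0 → x = 0)
    (r₀ l : Nat.Primes) (hr₀ : (r₀ : ℕ) ∉ S) (hθr : ¬ (p : ℤ) ∣ θ r₀) (hl : (l : ℕ) ∉ S)
    (hθl : ¬ (p : ℤ) ∣ θ l - (((l : ℕ) : ℤ) + 1))
    {y : JZero N'} (hy : y ∈ thetaPart N' p S θ) {x : JZero N} (hx : x ∈ ptors (JZero N) p)
    (h : d x = heckeOperatorBar N' r₀ (eis N' l y)) :
    ∃ x' ∈ thetaPart N p S θ, d x' = y := by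
  have hd : ∀ r : Nat.Primes, (r : ℕ) ∉ S → ∀ x ∈ ptors (JZero N) p,
      d (heckeOperatorBar N r x) = heckeOperatorBar N' r (d x) := fun r hr x hx =>
    SS.map_hecke_of_equivariant (SS.es_all N p).2 (SS.es_all N' p).2 d hdσ r
      (hS r r.2 hr).1 (hS r r.2 hr).2 x hx
  have t3 := eis_mem_thetaPart l hy
  have t2 := hecke_mem_thetaPart r₀ t3
  have hEx : (1 : Module.End ℤ (JZero N)) x ∈ thetaPart N p S θ :=
    mem_thetaPart_of_map_mem d hd 1 (fun r => Commute.one_left _)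
      (fun x hx h0 => hinj x hx h0) hx (by rw [h]; exact t2)
  have h3 : heckeOperatorBar N' r₀ (eis N' l y) ∈ (thetaPart N p S θ).map d := ⟨x, hEx, h⟩
  have h4 := mem_map_of_hecke_sub_mem hp d r₀ (hd r₀ hr₀) hr₀ 0 (by simpa using hθr) t3
    (by simpa using h3)
  have h5 := mem_map_of_hecke_sub_mem hp d l (hd l hl) hl _ hθl hy
    (by rw [← eis_apply]; exact h4)
  obtain ⟨x', hx', e⟩ := h5
  exact ⟨x', hx', e⟩

/-! ### the main theorems -/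

variable {m : ℕ} [NeZero m] {q : ℕ} [NeZero q]

theorem odd_of_eq_pow (hp : p.Prime) (hp2 : p ≠ 2) {n : ℕ} (hm : m = p ^ n) : Odd m := by
  rw [hm]
  exact (hp.odd_of_ne_two hp2).pow

/-- **case `A`** (`G = A₄` for `q = 3`, `G = S₃` for `q = 2`). -/
theorem car_main_A {N : ℕ} [NeZero N] (hp : p.Prime) (hp2 : p ≠ 2) (hq : q.Prime)
    (hqN : ¬ q ∣ N) (hAP : NonEisAP p S θ) (hqS : q ∈ S)
    (hS : ∀ r : ℕ, r.Prime → r ∉ S → ¬ r ∣ N * q * q * p)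
    (r₀ : Nat.Primes) (hr₀ : (r₀ : ℕ) ∉ S) (hr3 : (r₀ : ℕ) % 3 = 2) (hθr : ¬ (p : ℤ) ∣ θ r₀)
    {n : ℕ} (hm : m = p ^ n) {y : JZero (N * q * q)} (hy : y ∈ thetaPart (N * q * q) p S θ)
    (P : Symb (Gamma0 (N * q * q)) (ZMod m))
    (hk : IsKummer (N * q * q) m
      (chiOf (bd (Gamma0 (N * q * q)) (ZMod m) P : Additive (Gamma0 (N * q * q)) →+ ZMod m)) y)
    (htr : IsInv (Gamma0 (N * q * q)) (fun s => P.1 (trQ q • s) - P.1 s))
    (hg : ∀ g ∈ Gamma0 (N * q),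
      IsInv (Gamma0 (N * q * q)) (fun s => P.1 (mapGL ℚ g • s) - P.1 s)) :
    ∃ x' ∈ thetaPart N p S θ, pullA (N * q) q (pullB N q x') = y := by
  obtain ⟨l, hl1, hlS, hlne⟩ := hAP (N * q * q)
    (Nat.mul_pos (Nat.mul_pos (NeZero.pos N) (NeZero.pos q)) (NeZero.pos q))
  have hl1' : ((N * q * q : ℕ) : ℤ) ∣ ((l : ℕ) : ℤ) - 1 := Nat.modEq_iff_dvd.mp hl1.symm
  have hF := car_soft_A hq l.2 hl1' (mem_Symb_iff_soft.1 P.2) htr hg
  obtain ⟨x, hx, e⟩ := car_back (odd_of_eq_pow hp hp2 hm) l r₀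
    (fun h => hS l l.2 hlS (h.mul_right p)) hr3 (fun h => hS r₀ r₀.2 hr₀ (h.mul_right p)) P hk hF
  exact car_image hp hq hqN hAP hqS hS r₀ l hr₀ hθr hlS hlne hy ⟨n, by rw [← hm]; exact hx⟩ e

/-- **case `C`** (`G = C_q`) : level `M q`, `q ∣ M`. -/
theorem car_main_C {M : ℕ} [NeZero M] (hp : p.Prime) (hp2 : p ≠ 2) (hq : q.Prime)
    (hqM : q ∣ M) (hAP : NonEisAP p S θ)
    (hS : ∀ r : ℕ, r.Prime → r ∉ S → ¬ r ∣ M * q * p)
    (r₀ : Nat.Primes) (hr₀ : (r₀ : ℕ) ∉ S) (hr3 : (r₀ : ℕ) % 3 = 2) (hθr : ¬ (p : ℤ) ∣ θ r₀)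
    {n : ℕ} (hm : m = p ^ n) {y : JZero (M * q)} (hy : y ∈ thetaPart (M * q) p S θ)
    (P : Symb (Gamma0 (M * q)) (ZMod m))
    (hk : IsKummer (M * q) m
      (chiOf (bd (Gamma0 (M * q)) (ZMod m) P : Additive (Gamma0 (M * q)) →+ ZMod m)) y)
    (htr : IsInv (Gamma0 (M * q)) (fun s => P.1 (trQ q • s) - P.1 s)) :
    ∃ x' ∈ thetaPart M p S θ, pullB M q x' = y := by
  obtain ⟨l, hl1, hlS, hlne⟩ := hAP (M * q) (Nat.mul_pos (NeZero.pos M) (NeZero.pos q))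
  have hl1' : ((M * q : ℕ) : ℤ) ∣ ((l : ℕ) : ℤ) - 1 := Nat.modEq_iff_dvd.mp hl1.symm
  have hF : IsPot (Gamma0 M) (fun s => DD l P.1 ((dgQ q)⁻¹ • s)) := by
    obtain ⟨N, rfl⟩ := exists_eq_mul_left_of_dvd hqM
    exact car_soft_C hq l.2 hl1' (mem_Symb_iff_soft.1 P.2) htr
  obtain ⟨x, hx, e⟩ := car_back_one (odd_of_eq_pow hp hp2 hm) l r₀
    (fun h => hS l l.2 hlS (h.mul_right p)) hr3 (fun h => hS r₀ r₀.2 hr₀ (h.mul_right p)) P hk hF
  refine car_image_inj hp (pullB M q) (pullB_smul M q)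
    (fun r hr hrS => ⟨fun h => hS r hr hrS
      (h.trans (Nat.mul_dvd_mul_right (Dvd.intro _ rfl) p)), hS r hr hrS⟩) ?_
    r₀ l hr₀ hθr hlS hlne hy ⟨n, by rw [← hm]; exact hx⟩ e
  rintro x ⟨k, hk'⟩ h0
  have : NeZero (p ^ k) := ⟨pow_ne_zero _ hp.ne_zero⟩
  exact eq_zero_of_pullB_eq_zero (m := p ^ k) q hq hk' h0

end

end Fermat.Agent.ML.At2
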